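import Fermat.Agent.S17.HT0.HeightFn
import Fermat.Agent.S17.Top.Interface

/-!
# S17, block HT0: Galois invariance and Northcott over `ℚ` for `HT0.heightFn`
(task S17-HT0-FN, helper257).
-/

set_option autoImplicit false

noncomputable section

namespace Fermat.Agent.S17.HT0

open Fermat.Agent.S17.H

theorem isArith_heightFnOf (𝔳 : AbsFam) : Fermat.Agent.S17.IsArith (heightFnOf 𝔳) where
  galois := fun σ x => habs_galois 𝔳 σ x
  northcott := by
    intro n B
    have hfin := finite_ratVec_habs_le 𝔳 (ι := Fin (n + 1)) B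
    refine Set.Finite.of_finite_image (f := fun x : Fin n → ℚ => (Fin.cons 1 x : Fin (n + 1) → ℚ))
      (hfin.subset ?_) ?_
    · rintro _ ⟨x, hx, rfl⟩
      refine ⟨⟨0, rfl⟩, ?_⟩
      have : ratVec (Fin.cons 1 x : Fin (n + 1) → ℚ) =
          (Fin.cons (1 : Qb) (fun i => algebraMap ℚ Qb (x i)) : Fin (n + 1) → Qb) := by
        funext i
        refine Fin.cases ?_ (fun j => ?_) i
        · simp [ratVec]
        · simp [ratVec]
      rw [this]
      exact hx
    · intro x _ y _ hxy
      exact (Fin.cons_injective2 hxy).2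

theorem isArith : Fermat.Agent.S17.IsArith heightFn := isArith_heightFnOf _

end Fermat.Agent.S17.HT0
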