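import Fermat.Agent.S17.HT0.Defs

/-!
# S17, block HT0, node AVG: averages over finite orbits (helper129)

Push-forward under equivariant maps, additivity, monotonicity, constants.
-/

set_option autoImplicit false

noncomputable section

open scoped Classical

namespace Fermat.Agent.S17.HT0

open Fermat.Agent.S17.H

/-- the average over a finite orbit as a quotient of finite sums. -/
theorem avgOrb_eq_sum {G X : Type*} [Group G] [MulAction G X] (F : X → ℝ) (x : X)
    (hx : (MulAction.orbit G x).Finite) :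
    avgOrb G F x = (∑ y ∈ hx.toFinset, F y) / (hx.toFinset.card : ℝ) := by
  unfold avgOrb
  rw [finsum_mem_eq_finite_toFinset_sum _ hx, Set.ncard_eq_toFinset_card _ hx]

theorem card_orbit_toFinset_pos {G X : Type*} [Group G] [MulAction G X] (x : X)
    (hx : (MulAction.orbit G x).Finite) : 0 < hx.toFinset.card :=
  Finset.card_pos.mpr ⟨x, hx.mem_toFinset.mpr (MulAction.mem_orbit_self x)⟩

theorem smul_mem_orbit_of_mem {G X : Type*} [Group G] [MulAction G X] {x y : X} (g : G)
    (hy : y ∈ MulAction.orbit G x) : g • y ∈ MulAction.orbit G x := by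
  obtain ⟨h, rfl⟩ := hy
  exact ⟨g * h, mul_smul g h x⟩

/-- the image of a finite orbit under an equivariant map is the orbit of the image. -/
theorem image_orbit_eq {G X Y : Type*} [Group G] [MulAction G X] [MulAction G Y] (π : X → Y)
    (hπ : ∀ (g : G) (x : X), π (g • x) = g • π x) (x : X) :
    π '' MulAction.orbit G x = MulAction.orbit G (π x) := by
  ext z
  constructor
  · rintro ⟨_, ⟨g, rfl⟩, rfl⟩
    exact ⟨g, (hπ g x).symm⟩
  · rintro ⟨g, rfl⟩
    exact ⟨g • x, ⟨g, rfl⟩, hπ g x⟩

theorem finite_orbit_image {G X Y : Type*} [Group G] [MulAction G X] [MulAction G Y] (π : X → Y)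
    (hπ : ∀ (g : G) (x : X), π (g • x) = g • π x) (x : X)
    (hx : (MulAction.orbit G x).Finite) : (MulAction.orbit G (π x)).Finite := by
  rw [← image_orbit_eq π hπ x]
  exact hx.image π

/-- all the fibres of `orbit x → orbit (π x)` have the same cardinality. -/
theorem card_fiber_orbit {G X Y : Type*} [Group G] [MulAction G X] [MulAction G Y] (π : X → Y)
    (hπ : ∀ (g : G) (x : X), π (g • x) = g • π x) (x : X)
    (hx : (MulAction.orbit G x).Finite) (g : G) :
    (hx.toFinset.filter fun y => π y = g • π x).card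
      = (hx.toFinset.filter fun y => π y = π x).card := by
  symm
  refine Finset.card_nbij' (fun y => g • y) (fun y => g⁻¹ • y) ?_ ?_ ?_ ?_
  · intro y hy
    simp only [Finset.coe_filter, Set.Finite.mem_toFinset, Set.mem_ofPred_eq] at hy ⊢
    exact ⟨smul_mem_orbit_of_mem g hy.1, by rw [hπ, hy.2]⟩
  · intro y hy
    simp only [Finset.coe_filter, Set.Finite.mem_toFinset, Set.mem_ofPred_eq] at hy ⊢
    exact ⟨smul_mem_orbit_of_mem g⁻¹ hy.1, by rw [hπ, hy.2, inv_smul_smul]⟩
  · intro y _
    exact inv_smul_smul g y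
  · intro y _
    exact smul_inv_smul g y

/-- push-forward of the uniform measure of a finite orbit under an equivariant map. -/
theorem avgOrb_comp {G X Y : Type*} [Group G] [MulAction G X] [MulAction G Y] (π : X → Y)
    (hπ : ∀ (g : G) (x : X), π (g • x) = g • π x) (F : Y → ℝ) (x : X)
    (hx : (MulAction.orbit G x).Finite) : avgOrb G (F ∘ π) x = avgOrb G F (π x) := by
  have hx' : (MulAction.orbit G (π x)).Finite := finite_orbit_image π hπ x hx
  rw [avgOrb_eq_sum _ x hx, avgOrb_eq_sum _ (π x) hx']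
  set s := hx.toFinset with hs
  set s' := hx'.toFinset with hs'
  set κ : ℕ := (s.filter fun y => π y = π x).card with hκ
  have hmaps : ∀ y ∈ s, π y ∈ s' := by
    intro y hy
    rw [hs', Set.Finite.mem_toFinset, ← image_orbit_eq π hπ x]
    exact ⟨y, hx.mem_toFinset.mp hy, rfl⟩
  have hfib : ∀ z ∈ s', (s.filter fun y => π y = z).card = κ := by
    intro z hz
    obtain ⟨g, rfl⟩ := hx'.mem_toFinset.mp hz
    exact card_fiber_orbit π hπ x hx g
  have hsum : ∑ y ∈ s, (F ∘ π) y = (κ : ℝ) * ∑ z ∈ s', F z := by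
    rw [← Finset.sum_fiberwise_of_maps_to hmaps, Finset.mul_sum]
    refine Finset.sum_congr rfl fun z hz => ?_
    have h1 : ∑ y ∈ s.filter (fun y => π y = z), (F ∘ π) y
        = ∑ _y ∈ s.filter (fun y => π y = z), F z := by
      refine Finset.sum_congr rfl fun y hy => ?_
      rw [Function.comp_apply, (Finset.mem_filter.mp hy).2]
    rw [h1, Finset.sum_const, hfib z hz, nsmul_eq_mul]
  have hcard : s.card = κ * s'.card := by
    rw [Finset.card_eq_sum_card_fiberwise hmaps, Finset.sum_congr rfl hfib, Finset.sum_const,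
      smul_eq_mul, mul_comm]
  have hκpos : (κ : ℝ) ≠ 0 := by
    have h1 : 0 < s.card := card_orbit_toFinset_pos x hx
    have h2 : κ ≠ 0 := by
      rintro h0
      rw [hcard, h0, zero_mul] at h1
      exact lt_irrefl _ h1
    exact_mod_cast h2
  rw [hsum, hcard, Nat.cast_mul, mul_div_mul_left _ _ hκpos]

theorem avgOrb_add {G X : Type*} [Group G] [MulAction G X] (F F' : X → ℝ) (x : X)
    (hx : (MulAction.orbit G x).Finite) :
    avgOrb G (fun y => F y + F' y) x = avgOrb G F x + avgOrb G F' x := by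
  rw [avgOrb_eq_sum _ x hx, avgOrb_eq_sum _ x hx, avgOrb_eq_sum _ x hx, Finset.sum_add_distrib,
    add_div]

theorem avgOrb_mono {G X : Type*} [Group G] [MulAction G X] (F F' : X → ℝ) (x : X)
    (hx : (MulAction.orbit G x).Finite) (h : ∀ y ∈ MulAction.orbit G x, F y ≤ F' y) :
    avgOrb G F x ≤ avgOrb G F' x := by
  rw [avgOrb_eq_sum _ x hx, avgOrb_eq_sum _ x hx]
  exact div_le_div_of_nonneg_right
    (Finset.sum_le_sum fun y hy => h y (hx.mem_toFinset.mp hy)) (Nat.cast_nonneg _)

theorem avgOrb_const {G X : Type*} [Group G] [MulAction G X] (c : ℝ) (x : X)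
    (hx : (MulAction.orbit G x).Finite) : avgOrb G (fun _ => c) x = c := by
  rw [avgOrb_eq_sum _ x hx, Finset.sum_const, nsmul_eq_mul]
  have h : (hx.toFinset.card : ℝ) ≠ 0 := by
    exact_mod_cast (card_orbit_toFinset_pos x hx).ne'
  exact mul_div_cancel_left₀ c h

theorem avgOrb_congr {G X : Type*} [Group G] [MulAction G X] (F F' : X → ℝ) (x : X)
    (h : ∀ y ∈ MulAction.orbit G x, F y = F' y) : avgOrb G F x = avgOrb G F' x := by
  unfold avgOrb
  rw [finsum_mem_congr rfl h]

theorem avgOrb_mul_const {G X : Type*} [Group G] [MulAction G X] (c : ℝ) (F : X → ℝ) (x : X)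
    (hx : (MulAction.orbit G x).Finite) :
    avgOrb G (fun y => c * F y) x = c * avgOrb G F x := by
  rw [avgOrb_eq_sum _ x hx, avgOrb_eq_sum _ x hx, ← Finset.mul_sum, mul_div_assoc]

theorem avgOrb_sub {G X : Type*} [Group G] [MulAction G X] (F F' : X → ℝ) (x : X)
    (hx : (MulAction.orbit G x).Finite) :
    avgOrb G (fun y => F y - F' y) x = avgOrb G F x - avgOrb G F' x := by
  rw [avgOrb_eq_sum _ x hx, avgOrb_eq_sum _ x hx, avgOrb_eq_sum _ x hx, Finset.sum_sub_distrib,
    sub_div]

theorem avgOrb_nonneg {G X : Type*} [Group G] [MulAction G X] (F : X → ℝ) (x : X)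
    (hx : (MulAction.orbit G x).Finite) (h : ∀ y ∈ MulAction.orbit G x, 0 ≤ F y) :
    0 ≤ avgOrb G F x := by
  rw [avgOrb_eq_sum _ x hx]
  exact div_nonneg (Finset.sum_nonneg fun y hy => h y (hx.mem_toFinset.mp hy)) (Nat.cast_nonneg _)

/-- the average only depends on the orbit. -/
theorem avgOrb_smul {G X : Type*} [Group G] [MulAction G X] (F : X → ℝ) (g : G) (x : X) :
    avgOrb G F (g • x) = avgOrb G F x := by
  unfold avgOrb
  rw [MulAction.orbit_smul]

/-- the average of an invariant function is its value. -/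
theorem avgOrb_of_invariant {G X : Type*} [Group G] [MulAction G X] (F : X → ℝ) (x : X)
    (hx : (MulAction.orbit G x).Finite) (h : ∀ g : G, F (g • x) = F x) :
    avgOrb G F x = F x := by
  rw [avgOrb_congr F (fun _ => F x) x, avgOrb_const _ x hx]
  rintro _ ⟨g, rfl⟩
  exact h g

end Fermat.Agent.S17.HT0
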