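import Fermat.Agent.S17.H.Abs

/-!
# S17, block HT0: the absolute logarithmic height on `ι → ℚ̄`

`habs x` is the average of `ht 𝔳` (one chosen extension of every place of `ℚ`) over the finite
Galois orbit of `x`.  Definitions only.  Owner of this file: helper257.
-/

set_option autoImplicit false

noncomputable section

namespace Fermat.Agent.S17.HT0

open Fermat.Agent.S17.H

/-- the absolute Galois group of `ℚ`. -/
abbrev GQ : Type := Qb ≃ₐ[ℚ] Qb

/-- average of a function over an orbit (meaningful when the orbit is finite). -/
def avgOrb (G : Type*) [Group G] {X : Type*} [MulAction G X] (F : X → ℝ) (x : X) : ℝ :=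
  (∑ᶠ y ∈ MulAction.orbit G x, F y) / (MulAction.orbit G x).ncard

/-- the absolute logarithmic height of a vector with coordinates in `ℚ̄`. -/
def habs (𝔳 : AbsFam) {ι : Type*} (x : ι → Qb) : ℝ := avgOrb GQ (fun y : ι → Qb => ht 𝔳 y) x

end Fermat.Agent.S17.HT0
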