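import Fermat.Agent.S17.HT0.Props1

/-!
# S17, block HT0: further properties of the absolute height `habs`
(task S17-HT0-FN, helper257): `habs_zero`, `habs_sign`, `habs_comp_le`, `habs_pi_prod`.
-/

set_option autoImplicit false

noncomputable section

open scoped Classical

namespace Fermat.Agent.S17.HT0

open Fermat.Agent.S17.H

variable (𝔳 : AbsFam)

theorem galSmul_ne_zero {ι : Type*} (σ : GQ) {x : ι → Qb} (hx : x ≠ 0) : σ • x ≠ 0 := by
  intro h
  apply hx
  funext i
  have : σ (x i) = 0 := congrFun h i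
  simpa using this

theorem habs_zero {ι : Type*} [Finite ι] : habs 𝔳 (0 : ι → Qb) = 0 := by
  unfold habs
  rw [avgOrb_of_invariant _ _ (finite_orbit_vec _) (fun g => by rw [smul_zero]), ht_zero_vec]

/-- transfer along an equivariant map. -/
theorem habs_map {X : Type*} [MulAction GQ X] {κ : Type*} (π : X → κ → Qb)
    (hπ : ∀ (g : GQ) (x : X), π (g • x) = g • π x) (x : X) (hx : (MulAction.orbit GQ x).Finite) :
    habs 𝔳 (π x) = avgOrb GQ (fun y => ht 𝔳 (π y)) x :=
  (avgOrb_comp π hπ (fun y : κ → Qb => ht 𝔳 y) x hx).symm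

theorem habs_sign {ι : Type*} [Finite ι] (x y : ι → Qb) (h : ∀ i, y i = x i ∨ y i = - x i) :
    habs 𝔳 y = habs 𝔳 x := by
  set s : ι → Qb := fun i => if y i = x i then 1 else -1 with hs
  have hy : y = (fun x' : ι → Qb => fun i => s i * x' i) x := by
    funext i
    by_cases hi : y i = x i
    · simp [hs, hi]
    · have := (h i).resolve_left hi
      simp [hs, hi, this]
  have hsσ : ∀ (g : GQ) (i : ι), g (s i) = s i := by
    intro g i
    by_cases hi : y i = x i <;> simp [hs, hi]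
  rw [hy, habs_map 𝔳 (fun x' : ι → Qb => fun i => s i * x' i) _ x (finite_orbit_vec x)]
  · refine avgOrb_congr _ _ _ fun x' _ => ?_
    unfold ht
    refine finsum_congr fun v => ?_
    congr 1
    unfold vnorm
    refine iSup_congr fun i => ?_
    by_cases hi : y i = x i <;> simp [hs, hi]
  · intro g x'
    funext i
    show s i * g (x' i) = g (s i * x' i)
    rw [map_mul, hsσ]

theorem ht_comp_le {ι κ : Type*} [Finite ι] [Finite κ] (f : ι → κ) (x : κ → Qb)
    (h : x ∘ f ≠ 0) : ht 𝔳 (x ∘ f) ≤ ht 𝔳 x := by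
  unfold ht
  refine finsum_le_finsum' (finite_support_log_vnorm 𝔳 _) (finite_support_log_vnorm 𝔳 _)
    fun v => ?_
  refine Real.log_le_log (vnorm_pos 𝔳 v h) ?_
  exact vnorm_le 𝔳 v (vnorm_nonneg 𝔳 v x) fun i => le_vnorm 𝔳 v x (f i)

theorem habs_comp_le {ι κ : Type*} [Finite ι] [Finite κ] (f : ι → κ) (x : κ → Qb) :
    habs 𝔳 (x ∘ f) ≤ habs 𝔳 x := by
  by_cases h : x ∘ f = 0
  · rw [h, habs_zero]
    exact habs_nonneg 𝔳 x
  · rw [habs_map 𝔳 (fun x' : κ → Qb => x' ∘ f) (fun _ _ => rfl) x (finite_orbit_vec x)]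
    refine avgOrb_mono _ _ _ (finite_orbit_vec x) ?_
    rintro _ ⟨σ, rfl⟩
    refine ht_comp_le 𝔳 f _ ?_
    have : (σ • x) ∘ f = σ • (x ∘ f) := rfl
    simp only [this]
    exact galSmul_ne_zero σ h

theorem avgOrb_finset_sum {G X α : Type*} [Group G] [MulAction G X] (s : Finset α)
    (F : α → X → ℝ) (x : X) (hx : (MulAction.orbit G x).Finite) :
    avgOrb G (fun y => ∑ a ∈ s, F a y) x = ∑ a ∈ s, avgOrb G (F a) x := by
  induction s using Finset.induction_on with
  | empty => simpa using avgOrb_const (G := G) 0 x hx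
  | insert a s ha ih =>
    simp only [Finset.sum_insert ha]
    rw [avgOrb_add _ _ _ hx, ih]

theorem vnorm_pi_prod (v : Pl) {α : Type*} [Fintype α] {ι : α → Type*} [∀ a, Finite (ι a)]
    (x : (a : α) → ι a → Qb) (hx : ∀ a, x a ≠ 0) :
    vnorm 𝔳 v (fun I : (a : α) → ι a => ∏ a, x a (I a)) = ∏ a, vnorm 𝔳 v (x a) := by
  apply le_antisymm
  · refine vnorm_le 𝔳 v (Finset.prod_nonneg fun a _ => vnorm_nonneg 𝔳 v _) fun I => ?_
    rw [map_prod]
    exact Finset.prod_le_prod (fun a _ => (𝔳.av v).nonneg _) fun a _ => le_vnorm 𝔳 v (x a) (I a)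
  · have hne : ∀ a, Nonempty (ι a) := by
      intro a
      by_contra hempty
      rw [not_nonempty_iff] at hempty
      exact hx a (funext fun i => hempty.elim i)
    have hex : ∀ a, ∃ i, vnorm 𝔳 v (x a) = 𝔳.av v (x a i) := fun a => by
      haveI := hne a
      obtain ⟨i, hi⟩ := exists_eq_vnorm 𝔳 v (x a)
      exact ⟨i, by rw [hi]⟩
    choose I hI using hex
    calc ∏ a, vnorm 𝔳 v (x a) = 𝔳.av v (∏ a, x a (I a)) := by
          rw [map_prod]
          exact Finset.prod_congr rfl fun a _ => hI a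
      _ ≤ _ := le_vnorm 𝔳 v (fun I : (a : α) → ι a => ∏ a, x a (I a)) I

theorem ht_pi_prod {α : Type*} [Fintype α] {ι : α → Type*} [∀ a, Finite (ι a)]
    (x : (a : α) → ι a → Qb) (hx : ∀ a, x a ≠ 0) :
    ht 𝔳 (fun I : (a : α) → ι a => ∏ a, x a (I a)) = ∑ a, ht 𝔳 (x a) := by
  unfold ht
  rw [← finsum_sum_comm _ _ fun a _ => finite_support_log_vnorm 𝔳 (x a)]
  refine finsum_congr fun v => ?_
  rw [vnorm_pi_prod 𝔳 v x hx, Real.log_prod]
  exact fun a _ => (vnorm_pos 𝔳 v (hx a)).ne'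

/-- Segre for families. -/
theorem habs_pi_prod {α : Type*} [Fintype α] {ι : α → Type*} [∀ a, Finite (ι a)]
    (x : (a : α) → ι a → Qb) (hx : ∀ a, x a ≠ 0) :
    habs 𝔳 (fun I : (a : α) → ι a => ∏ a, x a (I a)) = ∑ a, habs 𝔳 (x a) := by
  have hfin : (MulAction.orbit GQ x).Finite :=
    finite_orbit_pi x fun a => finite_orbit_vec (x a)
  rw [habs_map 𝔳 (fun y : (a : α) → ι a → Qb => fun I : (a : α) → ι a => ∏ a, y a (I a)) _ x hfin]
  · rw [avgOrb_congr _ (fun y : (a : α) → ι a → Qb => ∑ a, ht 𝔳 (y a)) x, avgOrb_finset_sum _ _ _ hfin]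
    · refine Finset.sum_congr rfl fun a _ => ?_
      exact (habs_map 𝔳 (fun y : (a : α) → ι a → Qb => y a) (fun _ _ => rfl) x hfin).symm
    · rintro _ ⟨σ, rfl⟩
      exact ht_pi_prod 𝔳 _ fun a => galSmul_ne_zero σ (hx a)
  · intro g y
    funext I
    exact (map_prod g _ _).symm

end Fermat.Agent.S17.HT0
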