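import Fermat.Agent.S17.HT0.Props2
import Fermat.Agent.S17.HT0.Props3
import Fermat.Agent.S17.H.AbsExists
import Fermat.Agent.S17.TP.Height

/-!
# S17, block HT0: the absolute logarithmic height as a `TP.HeightFn`
(task S17-HT0-FN, helper257).
-/

set_option autoImplicit false

noncomputable section

namespace Fermat.Agent.S17.HT0

open Fermat.Agent.S17.H

/-- the height attached to a family of absolute values. -/
def heightFnOf (𝔳 : AbsFam) : TP.HeightFn Qb where
  h := fun x => habs 𝔳 x
  nonneg := fun x => habs_nonneg 𝔳 x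
  zero := habs_zero 𝔳
  smul := fun x _ hc => habs_smul 𝔳 hc x
  comp_equiv := fun e x => habs_comp_equiv 𝔳 e x
  sign := fun x y h => habs_sign 𝔳 x y h
  comp_le := fun f x => habs_comp_le 𝔳 f x
  pow := fun x n => habs_pow 𝔳 x n
  prod := fun x hx => habs_pi_prod 𝔳 x hx
  mul := fun _ _ hx hy => habs_tmul 𝔳 hx hy
  linear := by
    intro ι ι' _ _ A
    obtain ⟨C, hC⟩ := habs_mulVec_le 𝔳 (Matrix.of A)
    refine ⟨max C 0, fun x => ?_⟩
    have hAx : (fun j => ∑ i, A j i * x i) = (Matrix.of A).mulVec x := rfl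
    rw [hAx]
    by_cases h0 : (Matrix.of A).mulVec x = 0
    · rw [h0, habs_zero]
      exact add_nonneg (habs_nonneg 𝔳 x) (le_max_right _ _)
    · exact (hC x h0).trans (by gcongr; exact le_max_left _ _)

/-- the absolute logarithmic height on tuples of algebraic numbers. -/
def heightFn : TP.HeightFn Qb := heightFnOf (Classical.choice exists_absFam)

theorem heightFnOf_h (𝔳 : AbsFam) {ι : Type} (x : ι → Qb) : (heightFnOf 𝔳).h x = habs 𝔳 x := rfl

end Fermat.Agent.S17.HT0
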