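import Fermat.Agent.S17.HT0.Defs

/-!
# S17, block HT0, node ORB: Galois orbits of elements, vectors, pairs and matrices are finite
-/

set_option autoImplicit false

namespace Fermat.Agent.S17.HT0

open Fermat.Agent.S17.H

theorem isAlgebraic_Qb (a : Qb) : IsAlgebraic ℚ a := by
  have h : (DivisionRing.toRatAlgebra : Algebra ℚ (AlgebraicClosure ℚ)) =
      AlgebraicClosure.instAlgebra ℚ := Subsingleton.elim _ _
  have : Algebra.IsAlgebraic ℚ Qb := by
    show @Algebra.IsAlgebraic ℚ (AlgebraicClosure ℚ) _ _ DivisionRing.toRatAlgebra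
    rw [h]
    infer_instance
  exact Algebra.IsAlgebraic.isAlgebraic a

theorem finite_orbit_elt (a : Qb) : (MulAction.orbit GQ a).Finite := by
  refine ((minpoly ℚ a).rootSet_finite Qb).subset ?_
  rintro _ ⟨σ, rfl⟩
  have hne : minpoly ℚ a ≠ 0 := minpoly.ne_zero (isAlgebraic_Qb a).isIntegral
  rw [Polynomial.mem_rootSet]
  refine ⟨hne, ?_⟩
  show Polynomial.aeval (σ a) (minpoly ℚ a) = 0
  have h := Polynomial.aeval_algHom_apply σ.toAlgHom a (minpoly ℚ a)
  rw [minpoly.aeval, map_zero] at h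
  exact h

/-- general form: orbits in a finite product of sets with finite orbits are finite -/
theorem finite_orbit_pi {G ι : Type*} [Group G] [Finite ι] {X : ι → Type*}
    [∀ i, MulAction G (X i)] (x : ∀ i, X i) (h : ∀ i, (MulAction.orbit G (x i)).Finite) :
    (MulAction.orbit G x).Finite := by
  refine (Set.Finite.pi' h).subset ?_
  rintro _ ⟨σ, rfl⟩ i
  exact ⟨σ, rfl⟩

theorem finite_orbit_vec {ι : Type*} [Finite ι] (x : ι → Qb) : (MulAction.orbit GQ x).Finite :=
  finite_orbit_pi x fun i => finite_orbit_elt (x i)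

theorem finite_orbit_prod {X Y : Type*} [MulAction GQ X] [MulAction GQ Y] (x : X) (y : Y)
    (hx : (MulAction.orbit GQ x).Finite) (hy : (MulAction.orbit GQ y).Finite) :
    (MulAction.orbit GQ (x, y)).Finite := by
  refine (hx.prod hy).subset ?_
  rintro _ ⟨σ, rfl⟩
  exact ⟨⟨σ, rfl⟩, ⟨σ, rfl⟩⟩

theorem finite_orbit_mat {κ ι : Type*} [Finite κ] [Finite ι] (M : κ → ι → Qb) :
    (MulAction.orbit GQ M).Finite :=
  finite_orbit_pi M fun i => finite_orbit_vec (M i)

end Fermat.Agent.S17.HT0
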