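import Fermat.Agent.S17.H.AbsBasic
import Fermat.Agent.S17.H.ProdFormula
import Fermat.Agent.S17.HT0.Avg
import Fermat.Agent.S17.HT0.Orbit

/-!
# S17, block HT0: first properties of the absolute height `habs`
(task S17-HT0-P1, helper68)

`avgOrb_sum_log_av`, `habs_smul`, `habs_nonneg`, `habs_galois`, `habs_ratVec`.
-/

set_option autoImplicit false

noncomputable section

open scoped Classical

namespace Fermat.Agent.S17.HT0

open Fermat.Agent.S17.H

/-! ### Auxiliary facts -/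

variable (𝔳 : AbsFam)

theorem ht_zero_vec {ι : Type*} : ht 𝔳 (0 : ι → Qb) = 0 := by
  unfold ht
  simp

theorem ht_smul_vec {ι : Type*} [Finite ι] {c : Qb} (hc : c ≠ 0) {x : ι → Qb} (hx : x ≠ 0) :
    ht 𝔳 (c • x) = (∑ᶠ v, Real.log (𝔳.av v c)) + ht 𝔳 x := by
  unfold ht
  rw [← finsum_add_distrib (finite_support_log_av 𝔳 c) (finite_support_log_vnorm 𝔳 x)]
  refine finsum_congr fun v => ?_
  rw [vnorm_smul, Real.log_mul ((𝔳.av v).ne_zero hc) (vnorm_pos 𝔳 v hx).ne']

theorem galSmul_vec_apply {ι : Type*} (σ : GQ) (x : ι → Qb) (i : ι) : (σ • x) i = σ (x i) := rfl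

/-! ### The properties -/

/-- the average over the conjugates of `c` of `∑_v log |c'|_v` vanishes. -/
theorem avgOrb_sum_log_av {c : Qb} (hc : c ≠ 0) :
    avgOrb GQ (fun c' : Qb => ∑ᶠ v, Real.log (𝔳.av v c')) c = 0 := by
  have hfin := finite_orbit_elt c
  unfold avgOrb
  rw [finsum_mem_eq_finite_toFinset_sum _ hfin,
    ← finsum_sum_comm _ _ fun y _ => finite_support_log_av 𝔳 y,
    sum_log_av_galStable 𝔳 hfin.toFinset, zero_div]
  · intro σ y hy
    rw [Set.Finite.mem_toFinset] at hy ⊢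
    exact MulAction.mem_orbit_of_mem_orbit σ hy
  · rw [Set.Finite.mem_toFinset]
    rintro ⟨σ, hσ⟩
    apply hc
    have : σ c = 0 := hσ
    simpa using this

theorem habs_smul {ι : Type*} [Finite ι] {c : Qb} (hc : c ≠ 0) (x : ι → Qb) :
    habs 𝔳 (c • x) = habs 𝔳 x := by
  by_cases hx : x = 0
  · subst hx
    rw [smul_zero]
  have hfin : (MulAction.orbit GQ ((c, x) : Qb × (ι → Qb))).Finite :=
    finite_orbit_prod c x (finite_orbit_elt c) (finite_orbit_vec x)
  have h1 : habs 𝔳 (c • x) =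
      avgOrb GQ ((fun y : ι → Qb => ht 𝔳 y) ∘ fun z : Qb × (ι → Qb) => z.1 • z.2) (c, x) := by
    rw [avgOrb_comp (fun z : Qb × (ι → Qb) => z.1 • z.2) _ _ _ hfin]
    · rfl
    · intro g z
      funext i
      exact (map_mul g _ _).symm
  have h2 : avgOrb GQ ((fun y : ι → Qb => ht 𝔳 y) ∘ fun z : Qb × (ι → Qb) => z.1 • z.2) (c, x) =
      avgOrb GQ (fun z : Qb × (ι → Qb) =>
        ((fun c' : Qb => ∑ᶠ v, Real.log (𝔳.av v c')) ∘ Prod.fst) z +
        ((fun y : ι → Qb => ht 𝔳 y) ∘ Prod.snd) z) (c, x) := by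
    refine avgOrb_congr _ _ _ ?_
    rintro _ ⟨σ, rfl⟩
    have hc' : σ • c ≠ 0 := by
      intro h
      apply hc
      have : σ c = 0 := h
      simpa using this
    have hx' : σ • x ≠ 0 := by
      intro h
      apply hx
      funext i
      have : σ (x i) = 0 := congrFun h i
      simpa using this
    exact ht_smul_vec 𝔳 hc' hx'
  rw [h1, h2, avgOrb_add _ _ _ hfin, avgOrb_comp Prod.fst (fun _ _ => rfl) _ _ hfin,
    avgOrb_comp Prod.snd (fun _ _ => rfl) _ _ hfin, avgOrb_sum_log_av 𝔳 hc, zero_add]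
  rfl

theorem habs_nonneg {ι : Type*} [Finite ι] (x : ι → Qb) : 0 ≤ habs 𝔳 x := by
  have key : ∀ x : ι → Qb, (∀ y ∈ MulAction.orbit GQ x, 0 ≤ ht 𝔳 y) → 0 ≤ habs 𝔳 x := by
    intro x h
    have := avgOrb_mono (G := GQ) (fun _ => (0 : ℝ)) (fun y : ι → Qb => ht 𝔳 y) x
      (finite_orbit_vec x) h
    rwa [avgOrb_const _ _ (finite_orbit_vec x)] at this
  by_cases hx : x = 0
  · subst hx
    apply key
    rintro _ ⟨σ, rfl⟩
    have : σ • (0 : ι → Qb) = 0 := smul_zero σ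
    simp only [this, ht_zero_vec, le_refl]
  · obtain ⟨i0, hi0⟩ := Function.ne_iff.1 hx
    have hi0' : x i0 ≠ 0 := hi0
    rw [← habs_smul 𝔳 (inv_ne_zero hi0') x]
    apply key
    rintro _ ⟨σ, rfl⟩
    refine finsum_nonneg fun v => Real.log_nonneg ?_
    refine le_trans ?_ (le_vnorm 𝔳 v _ i0)
    have : (σ • ((x i0)⁻¹ • x)) i0 = 1 := by
      rw [galSmul_vec_apply, Pi.smul_apply, smul_eq_mul, inv_mul_cancel₀ hi0', map_one]
    simp only [this, map_one, le_refl]

/-- Galois invariance. -/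
theorem habs_galois {ι : Type*} [Finite ι] (σ : GQ) (x : ι → Qb) :
    habs 𝔳 (fun i => σ (x i)) = habs 𝔳 x := by
  have : (fun i => σ (x i)) = σ • x := rfl
  rw [this]
  unfold habs avgOrb
  rw [MulAction.orbit_smul]

/-- rational vectors. -/
theorem habs_ratVec {ι : Type*} [Finite ι] (x : ι → ℚ) : habs 𝔳 (ratVec x) = ht 𝔳 (ratVec x) := by
  unfold habs
  rw [avgOrb_congr (G := GQ) (fun y : ι → Qb => ht 𝔳 y) (fun _ => ht 𝔳 (ratVec x)),
    avgOrb_const _ _ (finite_orbit_vec _)]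
  rintro _ ⟨σ, rfl⟩
  have : σ • ratVec x = ratVec x := by
    funext i
    exact σ.commutes (x i)
  simp only [this]

end Fermat.Agent.S17.HT0
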