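import Fermat.Agent.S17.HT0.Props1
import Fermat.Agent.S17.H.PolyNorthcott

/-!
# S17, block HT0, node P2: tensor products, powers, linear maps, reindexing, Northcott over `ℚ`
(helper110)
-/

set_option autoImplicit false

noncomputable section

open scoped Classical

namespace Fermat.Agent.S17.HT0

open Fermat.Agent.S17.H

variable (𝔳 : AbsFam)

/-! ### local facts -/

section local_facts

variable (v : Pl)

theorem vnorm_tmul {ι κ : Type*} [Finite ι] [Finite κ] (x : ι → Qb) (y : κ → Qb) :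
    vnorm 𝔳 v (fun p : ι × κ => x p.1 * y p.2) = vnorm 𝔳 v x * vnorm 𝔳 v y := by
  refine le_antisymm ?_ ?_
  · refine vnorm_le 𝔳 v (mul_nonneg (vnorm_nonneg 𝔳 v x) (vnorm_nonneg 𝔳 v y)) fun p => ?_
    rw [map_mul]
    exact mul_le_mul (le_vnorm 𝔳 v x p.1) (le_vnorm 𝔳 v y p.2) ((𝔳.av v).nonneg _)
      (vnorm_nonneg 𝔳 v x)
  · rcases isEmpty_or_nonempty ι with h | h
    · rw [vnorm_of_isEmpty 𝔳 v x, zero_mul]
      exact vnorm_nonneg 𝔳 v _
    rcases isEmpty_or_nonempty κ with h' | h'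
    · rw [vnorm_of_isEmpty 𝔳 v y, mul_zero]
      exact vnorm_nonneg 𝔳 v _
    obtain ⟨i, hi⟩ := exists_eq_vnorm 𝔳 v x
    obtain ⟨k, hk⟩ := exists_eq_vnorm 𝔳 v y
    rw [← hi, ← hk, ← map_mul]
    exact le_vnorm 𝔳 v (fun p : ι × κ => x p.1 * y p.2) (i, k)

theorem log_vnorm_pow {ι : Type*} [Finite ι] (x : ι → Qb) (M : ℕ) :
    Real.log (vnorm 𝔳 v (fun i => x i ^ M)) = M * Real.log (vnorm 𝔳 v x) := by
  rcases isEmpty_or_nonempty ι with h | h
  · rw [vnorm_of_isEmpty, vnorm_of_isEmpty, Real.log_zero, mul_zero]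
  have : vnorm 𝔳 v (fun i => x i ^ M) = vnorm 𝔳 v x ^ M := by
    refine le_antisymm ?_ ?_
    · refine vnorm_le 𝔳 v (pow_nonneg (vnorm_nonneg 𝔳 v x) M) fun i => ?_
      rw [map_pow]
      exact pow_le_pow_left₀ ((𝔳.av v).nonneg _) (le_vnorm 𝔳 v x i) M
    · obtain ⟨i, hi⟩ := exists_eq_vnorm 𝔳 v x
      rw [← hi, ← map_pow]
      exact le_vnorm 𝔳 v (fun i => x i ^ M) i
  rw [this, Real.log_pow]

theorem vnorm_comp_equiv {ι κ : Type*} (e : κ ≃ ι) (x : ι → Qb) :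
    vnorm 𝔳 v (x ∘ e) = vnorm 𝔳 v x :=
  e.iSup_comp (g := fun i => 𝔳.av v (x i))

theorem vnorm_extend_zero {ι κ : Type*} [Finite ι] [Finite κ] (f : ι → κ)
    (hf : Function.Injective f) (x : ι → Qb) :
    vnorm 𝔳 v (Function.extend f x 0) = vnorm 𝔳 v x := by
  refine le_antisymm ?_ ?_
  · refine vnorm_le 𝔳 v (vnorm_nonneg 𝔳 v x) fun k => ?_
    by_cases hk : ∃ i, f i = k
    · obtain ⟨i, rfl⟩ := hk
      rw [hf.extend_apply]
      exact le_vnorm 𝔳 v x i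
    · rw [Function.extend_apply' _ _ _ hk]
      simpa using vnorm_nonneg 𝔳 v x
  · refine vnorm_le 𝔳 v (vnorm_nonneg 𝔳 v _) fun i => ?_
    have := le_vnorm 𝔳 v (Function.extend f x 0) (f i)
    rwa [hf.extend_apply] at this

/-- the bilinear map `(a, x) ↦ a x` on coordinate vectors. -/
def mv {ι κ : Type*} [Fintype ι] (z : ((κ × ι) → Qb) × (ι → Qb)) : κ → Qb :=
  fun k => ∑ j, z.1 (k, j) * z.2 j

theorem vnorm_mv_le {ι κ : Type*} [Fintype ι] [Finite κ] (a : (κ × ι) → Qb) (x : ι → Qb) :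
    vnorm 𝔳 v (mv (a, x)) ≤ ac v (Fintype.card ι) * (vnorm 𝔳 v a * vnorm 𝔳 v x) := by
  have h0 : 0 ≤ vnorm 𝔳 v a * vnorm 𝔳 v x :=
    mul_nonneg (vnorm_nonneg 𝔳 v a) (vnorm_nonneg 𝔳 v x)
  refine vnorm_le 𝔳 v (mul_nonneg (ac_nonneg v _) h0) fun k => ?_
  refine av_sum_le 𝔳 v Finset.univ _ h0 fun j _ => ?_
  rw [map_mul]
  exact mul_le_mul (le_vnorm 𝔳 v a (k, j)) (le_vnorm 𝔳 v x j) ((𝔳.av v).nonneg _)
    (vnorm_nonneg 𝔳 v a)

end local_facts

/-! ### finite supports -/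

section supports

theorem finsum_log_ac (n : ℕ) : ∑ᶠ v, Real.log (ac v n) = Real.log n := by
  rw [finsum_eq_single _ (none : Pl)]
  · simp
  · intro v hv
    cases v with
    | none => exact absurd rfl hv
    | some p => simp

end supports

/-! ### global facts for `ht` -/

section ht

theorem ht_tmul {ι κ : Type*} [Finite ι] [Finite κ] {x : ι → Qb} {y : κ → Qb} (hx : x ≠ 0)
    (hy : y ≠ 0) : ht 𝔳 (fun p : ι × κ => x p.1 * y p.2) = ht 𝔳 x + ht 𝔳 y := by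
  unfold ht
  rw [← finsum_add_distrib (finite_support_log_vnorm 𝔳 x) (finite_support_log_vnorm 𝔳 y)]
  refine finsum_congr fun v => ?_
  rw [vnorm_tmul, Real.log_mul (vnorm_pos 𝔳 v hx).ne' (vnorm_pos 𝔳 v hy).ne']

theorem ht_pow {ι : Type*} [Finite ι] (x : ι → Qb) (M : ℕ) :
    ht 𝔳 (fun i => x i ^ M) = M * ht 𝔳 x := by
  unfold ht
  rw [← smul_eq_mul, smul_finsum]
  refine finsum_congr fun v => ?_
  rw [log_vnorm_pow, smul_eq_mul]

theorem ht_comp_equiv {ι κ : Type*} (e : κ ≃ ι) (x : ι → Qb) : ht 𝔳 (x ∘ e) = ht 𝔳 x := by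
  unfold ht
  exact finsum_congr fun v => by rw [vnorm_comp_equiv]

theorem ht_extend_zero {ι κ : Type*} [Finite ι] [Finite κ] (f : ι → κ)
    (hf : Function.Injective f) (x : ι → Qb) : ht 𝔳 (Function.extend f x 0) = ht 𝔳 x := by
  unfold ht
  exact finsum_congr fun v => by rw [vnorm_extend_zero 𝔳 v f hf]

theorem ht_mv_le {ι κ : Type*} [Fintype ι] [Finite κ] (a : (κ × ι) → Qb) (x : ι → Qb)
    (h : mv (a, x) ≠ 0) :
    ht 𝔳 (mv (a, x)) ≤ ht 𝔳 x + (Real.log (Fintype.card ι) + ht 𝔳 a) := by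
  have hx : x ≠ 0 := by
    rintro rfl
    exact h (by funext k; simp [mv])
  have ha : a ≠ 0 := by
    rintro rfl
    exact h (by funext k; simp [mv])
  have hι : 1 ≤ Fintype.card ι := by
    obtain ⟨i, -⟩ := Function.ne_iff.1 hx
    exact Fintype.card_pos_iff.mpr ⟨i⟩
  rw [← finsum_log_ac]
  unfold ht
  rw [← finsum_add_distrib (finite_support_log_ac _) (finite_support_log_vnorm 𝔳 a),
    ← finsum_add_distrib (finite_support_log_vnorm 𝔳 x)
      ((finite_support_log_ac _).union (finite_support_log_vnorm 𝔳 a) |>.subset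
        (Function.support_add _ _))]
  refine finsum_le_finsum' (finite_support_log_vnorm 𝔳 _)
    ((finite_support_log_vnorm 𝔳 x).union
      ((finite_support_log_ac _).union (finite_support_log_vnorm 𝔳 a) |>.subset
        (Function.support_add _ _)) |>.subset (Function.support_add _ _)) fun v => ?_
  have h1 := vnorm_mv_le 𝔳 v a x
  have h2 := Real.log_le_log (vnorm_pos 𝔳 v h) h1
  rw [Real.log_mul (ac_pos v hι).ne' (mul_pos (vnorm_pos 𝔳 v ha) (vnorm_pos 𝔳 v hx)).ne',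
    Real.log_mul (vnorm_pos 𝔳 v ha).ne' (vnorm_pos 𝔳 v hx).ne'] at h2
  linarith

end ht

/-! ### the properties of `habs` -/

theorem smul_ne_zero_vec {ι : Type*} {x : ι → Qb} (hx : x ≠ 0) (σ : GQ) : σ • x ≠ 0 := by
  intro h
  apply hx
  have := congrArg (fun y => σ⁻¹ • y) h
  simpa using this

theorem habs_tmul {ι κ : Type*} [Finite ι] [Finite κ] {x : ι → Qb} {y : κ → Qb} (hx : x ≠ 0)
    (hy : y ≠ 0) : habs 𝔳 (fun p : ι × κ => x p.1 * y p.2) = habs 𝔳 x + habs 𝔳 y := by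
  have hz : (MulAction.orbit GQ (x, y)).Finite :=
    finite_orbit_prod x y (finite_orbit_vec x) (finite_orbit_vec y)
  let π : (ι → Qb) × (κ → Qb) → (ι × κ → Qb) := fun z p => z.1 p.1 * z.2 p.2
  have hπ : ∀ (g : GQ) (z : (ι → Qb) × (κ → Qb)), π (g • z) = g • π z := by
    intro g z
    funext p
    simp [π]
  have h1 := avgOrb_comp π hπ (fun w => ht 𝔳 w) (x, y) hz
  have h2 := avgOrb_comp (G := GQ) (Prod.fst : (ι → Qb) × (κ → Qb) → (ι → Qb))
    (fun _ _ => rfl) (fun w => ht 𝔳 w) (x, y) hz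
  have h3 := avgOrb_comp (G := GQ) (Prod.snd : (ι → Qb) × (κ → Qb) → (κ → Qb))
    (fun _ _ => rfl) (fun w => ht 𝔳 w) (x, y) hz
  unfold habs
  change avgOrb GQ (fun w => ht 𝔳 w) (π (x, y)) = _
  rw [← h1]
  change _ = avgOrb GQ (fun w => ht 𝔳 w) (Prod.fst (x, y)) +
    avgOrb GQ (fun w => ht 𝔳 w) (Prod.snd (x, y))
  rw [← h2, ← h3, ← avgOrb_add _ _ _ hz]
  refine avgOrb_congr _ _ _ ?_
  rintro _ ⟨σ, rfl⟩
  exact ht_tmul 𝔳 (smul_ne_zero_vec hx σ) (smul_ne_zero_vec hy σ)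

theorem habs_pow {ι : Type*} [Finite ι] (x : ι → Qb) (M : ℕ) :
    habs 𝔳 (fun i => x i ^ M) = M * habs 𝔳 x := by
  let π : (ι → Qb) → (ι → Qb) := fun z i => z i ^ M
  have hπ : ∀ (g : GQ) (z : ι → Qb), π (g • z) = g • π z := by
    intro g z
    funext i
    simp [π]
  have h1 := avgOrb_comp π hπ (fun w => ht 𝔳 w) x (finite_orbit_vec x)
  unfold habs
  change avgOrb GQ (fun w => ht 𝔳 w) (π x) = _
  rw [← h1, ← avgOrb_mul_const _ _ _ (finite_orbit_vec x)]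
  exact avgOrb_congr _ _ _ fun y _ => ht_pow 𝔳 y M

theorem habs_mulVec_le {ι κ : Type*} [Fintype ι] [Finite κ] (A : Matrix κ ι Qb) :
    ∃ C : ℝ, ∀ x : ι → Qb, A.mulVec x ≠ 0 → habs 𝔳 (A.mulVec x) ≤ habs 𝔳 x + C := by
  let a : (κ × ι) → Qb := fun p => A p.1 p.2
  refine ⟨Real.log (Fintype.card ι) + habs 𝔳 a, fun x hx => ?_⟩
  have hz : (MulAction.orbit GQ (a, x)).Finite :=
    finite_orbit_prod a x (finite_orbit_vec a) (finite_orbit_vec x)
  have hπ : ∀ (g : GQ) (z : ((κ × ι) → Qb) × (ι → Qb)), mv (g • z) = g • mv z := by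
    intro g z
    funext k
    simp [mv, Finset.smul_sum]
  have hAx : A.mulVec x = mv (a, x) := rfl
  have h1 := avgOrb_comp mv hπ (fun w => ht 𝔳 w) (a, x) hz
  have h2 := avgOrb_comp (G := GQ) (Prod.fst : ((κ × ι) → Qb) × (ι → Qb) → ((κ × ι) → Qb))
    (fun _ _ => rfl) (fun w => ht 𝔳 w) (a, x) hz
  have h3 := avgOrb_comp (G := GQ) (Prod.snd : ((κ × ι) → Qb) × (ι → Qb) → (ι → Qb))
    (fun _ _ => rfl) (fun w => ht 𝔳 w) (a, x) hz
  have h4 := avgOrb_const (G := GQ) (Real.log (Fintype.card ι)) (a, x) hz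
  unfold habs
  rw [hAx, ← h1]
  change _ ≤ avgOrb GQ (fun w => ht 𝔳 w) (Prod.snd (a, x)) +
    (_ + avgOrb GQ (fun w => ht 𝔳 w) (Prod.fst (a, x)))
  rw [← h2, ← h3]
  conv_rhs => rw [← h4]
  rw [← avgOrb_add _ _ _ hz, ← avgOrb_add _ _ _ hz]
  refine avgOrb_mono _ _ _ hz ?_
  rintro _ ⟨σ, rfl⟩
  refine ht_mv_le 𝔳 (σ • a) (σ • x) ?_
  have : mv (σ • a, σ • x) = σ • mv (a, x) := hπ σ (a, x)
  rw [this]
  exact smul_ne_zero_vec (hAx ▸ hx) σ

/-- invariance under reindexing and under adding zero coordinates. -/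
theorem habs_comp_equiv {ι κ : Type*} [Finite ι] [Finite κ] (e : κ ≃ ι) (x : ι → Qb) :
    habs 𝔳 (x ∘ e) = habs 𝔳 x := by
  let π : (ι → Qb) → (κ → Qb) := fun z => z ∘ e
  have h1 := avgOrb_comp (G := GQ) π (fun _ _ => rfl) (fun w => ht 𝔳 w) x (finite_orbit_vec x)
  unfold habs
  change avgOrb GQ (fun w => ht 𝔳 w) (π x) = _
  rw [← h1]
  exact avgOrb_congr _ _ _ fun y _ => ht_comp_equiv 𝔳 e y

theorem habs_extend_zero {ι κ : Type*} [Finite ι] [Finite κ] (f : ι → κ)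
    (hf : Function.Injective f) (x : ι → Qb) :
    habs 𝔳 (Function.extend f x 0) = habs 𝔳 x := by
  let π : (ι → Qb) → (κ → Qb) := fun z => Function.extend f z 0
  have hπ : ∀ (g : GQ) (z : ι → Qb), π (g • z) = g • π z := by
    intro g z
    funext k
    by_cases hk : ∃ i, f i = k
    · obtain ⟨i, rfl⟩ := hk
      simp [π, hf.extend_apply]
    · simp [π, Function.extend_apply' _ _ _ hk]
  have h1 := avgOrb_comp π hπ (fun w => ht 𝔳 w) x (finite_orbit_vec x)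
  unfold habs
  change avgOrb GQ (fun w => ht 𝔳 w) (π x) = _
  rw [← h1]
  exact avgOrb_congr _ _ _ fun y _ => ht_extend_zero 𝔳 f hf y

/-- Northcott over `ℚ`, projective form: rational vectors with a coordinate equal to `1`. -/
theorem finite_ratVec_habs_le {ι : Type*} [Finite ι] (B : ℝ) :
    {x : ι → ℚ | (∃ i, x i = 1) ∧ habs 𝔳 (ratVec x) ≤ B}.Finite := by
  rcases isEmpty_or_nonempty ι with h | h
  · refine Set.Finite.subset Set.finite_empty ?_
    rintro x ⟨⟨i, -⟩, -⟩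
    exact h.elim i
  obtain ⟨n, hn⟩ : ∃ n, Nat.card ι = n + 1 :=
    ⟨Nat.card ι - 1, (Nat.succ_pred_eq_of_pos Nat.card_pos).symm⟩
  let e : Fin (n + 1) ≃ ι := (hn ▸ Finite.equivFin ι).symm
  set S : Set ℚ := {a : ℚ | a.den ≤ (⌊Real.exp B⌋₊).factorial ∧
    |(a.num : ℝ)| ≤ Real.exp B * (⌊Real.exp B⌋₊).factorial} with hS
  have hSfin : S.Finite := northcott_finite_rat _ _
  refine (Set.Finite.pi' fun _ : ι => hSfin).subset ?_
  rintro x ⟨⟨i₀, hi₀⟩, hx⟩ j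
  rw [habs_ratVec, ← ht_comp_equiv 𝔳 e] at hx
  have := northcott_coord 𝔳 (x ∘ e) (e.symm i₀) (by simpa using hi₀) B hx (e.symm j)
  simp only [Function.comp_apply, Equiv.apply_symm_apply] at this
  exact this

end Fermat.Agent.S17.HT0
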